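/-
GATE-B (S38/S43) / CASE A node A2 (helper19): **descent of an invariant Kummer class to an
INVARIANT UNIT — without Hilbert 90.**

For any set `H ⊆ G_ℚ` (in CASE A: `H = I_A`, the inertia group of a valuation subring `A` of `ℚ̄`)
and a class `x ∈ Kum_m(F_N)`, `F_N = ℚ̄(X₀(N))`, fixed by every `σ ∈ H`, there is a representative
`u` (so `x = [u]`, `div u ∈ m·Div`) which is fixed COEFFICIENTWISE by every `σ ∈ H`:

* `(1/m)·div u = E - n·∞` with `E ≥ 0`, `deg E = n ≤ g`, and `E` is `H`-stable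
  (the canonical reduced representative of the class relative to the cusp `∞`,
  `GR/W/RatRep.exists_stable_rep`);
* the leading `q`-coefficient of `u` is `1`;
* hence `σ u` and `u` have the same divisor and the same leading coefficient: `σ u = u`.

So all `q`-expansion coefficients of `u` lie in the fixed field `ℚ̄^H` (for `H = I_A`: in `K^nr`).
-/
import Fermat.Agent.GR.W.RatRep
import Fermat.Agent.GH.KummerEquivariant

set_option autoImplicit false

noncomputable section

open AlgebraicCurve ModularCurve HahnSeries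

namespace Fermat.Agent.GB.A.Descent

open Fermat.Agent.GJ.KumGroup Fermat.Agent.GJ.Kum.KumType Fermat.Agent.GH.KummerPic
  Fermat.Agent.GH.KummerEquivariant Fermat.Agent.GH.TorsionCount Fermat.Agent.GR.W.RatRep
  Fermat.Agent.S24 Fermat.Agent.RR

local notation "GQ" => (AlgebraicClosure ℚ ≃ₐ[ℚ] AlgebraicClosure ℚ)

variable (N : ℕ) [NeZero N] (m : ℕ) [NeZero m]

/-- the leading `q`-expansion coefficient of a modular function -/
def lc (f : FK N) : Kb := (f : LaurentSeries Kb).leadingCoeff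

omit [NeZero N] in
theorem lc_mul (f g : FK N) : lc N (f * g) = lc N f * lc N g := by
  unfold lc
  rw [MulMemClass.coe_mul, HahnSeries.leadingCoeff_mul]

omit [NeZero N] in
theorem lc_one : lc N (1 : FK N) = 1 := by
  unfold lc
  rw [OneMemClass.coe_one, HahnSeries.leadingCoeff_one]

omit [NeZero N] in
theorem lc_pow (f : FK N) (k : ℕ) : lc N (f ^ k) = lc N f ^ k := by
  induction k with
  | zero => rw [pow_zero, pow_zero, lc_one]
  | succ k ih => rw [pow_succ, pow_succ, lc_mul, ih]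

omit [NeZero N] in
theorem lc_algebraMap (c : Kb) : lc N (algebraMap Kb (FK N) c) = c := by
  unfold lc
  have h : ((algebraMap Kb (FK N) c : FK N) : LaurentSeries Kb) = HahnSeries.single 0 c := by
    rw [← algebraMap_laurentSeries_eq_single]
    rfl
  rw [h]
  exact HahnSeries.leadingCoeff_of_single

omit [NeZero N] in
theorem lc_ne_zero {f : FK N} (hf : f ≠ 0) : lc N f ≠ 0 := by
  unfold lc
  rw [HahnSeries.leadingCoeff_ne_zero]
  exact fun h => hf (Subtype.ext h)

omit [NeZero N] in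
theorem lc_gal (σ : GQ) (f : FK N) :
    lc N (arithmeticGalois (modularFunctionFieldFull N) σ • f) = σ (lc N f) :=
  Fermat.Agent.GJ.Desc.leadingCoeff_arithmeticGalois_smul Kb (modularFunctionFieldFull N) σ f

/-! ### Units with prescribed `(1/m)·div` -/

/-- twisting a `m`-divisible unit by an `m`-th power -/
def twistPow (u : pDivUnits Kb (FK N) m) (w : (FK N)ˣ) : pDivUnits Kb (FK N) m :=
  ⟨(u : (FK N)ˣ) * w ^ m, (pDivUnits Kb (FK N) m).mul_mem u.2 (pow_mem_pDivUnits Kb (FK N) m w)⟩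

omit [NeZero N] [NeZero m] in
theorem coe_twistPow (u : pDivUnits Kb (FK N) m) (w : (FK N)ˣ) :
    (((twistPow N m u w : pDivUnits Kb (FK N) m) : (FK N)ˣ) : FK N) =
      ((u : (FK N)ˣ) : FK N) * (w : FK N) ^ m := by
  show (((u : (FK N)ˣ) * w ^ m : (FK N)ˣ) : FK N) = _
  rw [Units.val_mul, Units.val_pow_eq_pow_val]

omit [NeZero N] [NeZero m] in
theorem mk_twistPow (u : pDivUnits Kb (FK N) m) (w : (FK N)ˣ) :
    (Additive.ofMul (Kum.mk (twistPow N m u w)) : Additive (Kum Kb (FK N) m)) =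
      Additive.ofMul (Kum.mk u) :=
  (ofMul_mk_eq_of w rfl).symm

omit [NeZero m] in
theorem divDiv_twistPow (u : pDivUnits Kb (FK N) m) (w : (FK N)ˣ) (hm : m ≠ 0)
    (v : Place Kb (FK N)) :
    haveI := hasPrincipalDivisors_FK N
    divDiv m (twistPow N m u w) v = divDiv m u v + v.ord (w : FK N) := by
  haveI := hasPrincipalDivisors_FK N
  have hm' : (m : ℤ) ≠ 0 := Int.natCast_ne_zero.2 hm
  apply mul_left_cancel₀ hm'
  rw [mul_add, mul_divDiv_apply, mul_divDiv_apply, coe_twistPow,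
    Place.ord_mul _ (u : (FK N)ˣ).ne_zero (pow_ne_zero _ w.ne_zero), ← zpow_natCast,
    Place.ord_zpow]

/-- **A2 (descent without Hilbert 90).**  A Kummer class of `F_N = ℚ̄(X₀(N))` fixed by every
`σ ∈ H` has a representative `u` with leading `q`-coefficient `1`, fixed coefficientwise by every
`σ ∈ H`, and with `(1/m)·div u = E - n·∞`, `E ≥ 0` `H`-stable of degree `n ≤ g`. -/
theorem exists_fixed_rep (H : Set GQ) (x : Additive (Kum Kb (FK N) m))
    (hx : ∀ σ ∈ H, gal N m σ x = x) :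
    haveI := hasPrincipalDivisors_FK N
    ∃ u : pDivUnits Kb (FK N) m, Additive.ofMul (Kum.mk u) = x ∧
      lc N ((u : (FK N)ˣ) : FK N) = 1 ∧
      (∀ σ ∈ H, galUnits N σ (u : (FK N)ˣ) = (u : (FK N)ˣ)) ∧
      ∃ (n : ℕ) (E : Divisor Kb (FK N)), n ≤ genusFF Kb (FK N) ∧ 0 ≤ E ∧
        Divisor.degree E = n ∧
        (∀ σ ∈ H, arithmeticGalois (modularFunctionFieldFull N) σ • E = E) ∧
        divDiv m u = E - Finsupp.single (cuspInf N) (n : ℤ) := by
  classical
  haveI := hasPrincipalDivisors_FK N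
  haveI := ModularBar.finiteResidues N
  haveI := ModularBar.nonempty_place N
  have hm : m ≠ 0 := NeZero.ne m
  have hm' : (m : ℤ) ≠ 0 := Int.natCast_ne_zero.2 hm
  obtain ⟨u₀, rfl⟩ := exists_rep (K := Kb) (F := FK N) (p := m) x
  -- the class of `(1/m)·div u₀` is `H`-fixed
  have hcfix : ∀ σ ∈ H, arithmeticGalois (modularFunctionFieldFull N) σ •
      (Pic0.mk ⟨divDiv m u₀, degree_divDiv m u₀⟩ : JZero N) =
        Pic0.mk ⟨divDiv m u₀, degree_divDiv m u₀⟩ := by
    intro σ hσ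
    have h1 := coe_kummerEquivFK_gal N m σ (Additive.ofMul (Kum.mk u₀))
    rw [hx σ hσ, coe_kummerEquivFK_mk] at h1
    exact h1.symm
  obtain ⟨n, hn, E, hE, hdeg, hstab, h, hcE⟩ :=
    exists_stable_rep (finrank_L_zero N) (cuspInf N) (deg_cuspInf N)
      (Pic0.mk ⟨divDiv m u₀, degree_divDiv m u₀⟩ : JZero N)
  rw [mk_eq_mk_iff] at hcE
  obtain ⟨g, hg, hgD⟩ := hcE
  -- first twist: prescribed divisor
  set u₁ : pDivUnits Kb (FK N) m := twistPow N m u₀ (Units.mk0 g hg) with hu₁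
  have hdiv₁ : divDiv m u₁ = E - Finsupp.single (cuspInf N) (n : ℤ) := by
    ext v
    rw [hu₁, divDiv_twistPow N m u₀ _ hm v, Units.val_mk0, ← hgD v]
    show divDiv m u₀ v + ((E - Finsupp.single (cuspInf N) (n : ℤ) : Divisor Kb (FK N)) v -
      divDiv m u₀ v) = _
    ring
  -- second twist: leading coefficient one
  have ha : lc N ((u₁ : (FK N)ˣ) : FK N) ≠ 0 := lc_ne_zero N (u₁ : (FK N)ˣ).ne_zero
  obtain ⟨d, hd⟩ := exists_root_Kb m (lc N ((u₁ : (FK N)ˣ) : FK N))⁻¹
  have hd0 : d ≠ 0 := by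
    rintro rfl
    rw [zero_pow hm] at hd
    exact inv_ne_zero ha hd.symm
  have hd0' : algebraMap Kb (FK N) d ≠ 0 := by
    rw [Ne, map_eq_zero_iff _ (algebraMap Kb (FK N)).injective]
    exact hd0
  set u : pDivUnits Kb (FK N) m := twistPow N m u₁ (Units.mk0 _ hd0') with hu
  have hdiv : divDiv m u = E - Finsupp.single (cuspInf N) (n : ℤ) := by
    rw [← hdiv₁]
    ext v
    rw [hu, divDiv_twistPow N m u₁ _ hm v, Units.val_mk0, PlaceB.ord_algebraMap v hd0, add_zero]
  have hlc : lc N ((u : (FK N)ˣ) : FK N) = 1 := by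
    rw [hu, coe_twistPow, Units.val_mk0, lc_mul, lc_pow, lc_algebraMap, hd]
    exact mul_inv_cancel₀ ha
  refine ⟨u, ?_, hlc, ?_, n, E, hn, hE, hdeg,
    fun σ hσ => hstab _ (galois_smul_cuspInf N σ) (hcfix σ hσ), hdiv⟩
  · rw [hu, mk_twistPow, hu₁, mk_twistPow]
  · intro σ hσ
    set gσ := arithmeticGalois (modularFunctionFieldFull N) σ with hgσ
    have hEσ : gσ • E = E := hstab _ (galois_smul_cuspInf N σ) (hcfix σ hσ)
    -- `σ u` and `u` have the same divisor
    have hsame : divDiv m (smulDiv m gσ u) = divDiv m u := by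
      rw [divDiv_smulDiv, hdiv, smul_sub, hEσ]
      congr 1
      rw [SemilinearAut.divisor_smul_def, Finsupp.mapDomain_single]
      exact congrArg (fun P => Finsupp.single P (n : ℤ)) (galois_smul_cuspInf N σ)
    have hu0 : ((u : (FK N)ˣ) : FK N) ≠ 0 := (u : (FK N)ˣ).ne_zero
    have hσu0 : gσ • ((u : (FK N)ˣ) : FK N) ≠ 0 := by
      rw [← coe_smulDiv m gσ u]
      exact ((smulDiv m gσ u : pDivUnits Kb (FK N) m) : (FK N)ˣ).ne_zero
    have hord : ∀ v : Place Kb (FK N),
        v.ord ((gσ • ((u : (FK N)ˣ) : FK N)) * (((u : (FK N)ˣ) : FK N))⁻¹) = 0 := by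
      intro v
      rw [Place.ord_mul _ hσu0 (inv_ne_zero hu0), Place.ord_inv, ← coe_smulDiv m gσ u,
        ← mul_divDiv_apply m (smulDiv m gσ u) v, ← mul_divDiv_apply m u v, hsame]
      ring
    obtain ⟨c, hc⟩ := exists_const_FK N _ hord
    have hσu : gσ • ((u : (FK N)ˣ) : FK N) = algebraMap Kb (FK N) c * ((u : (FK N)ˣ) : FK N) := by
      rw [← hc, inv_mul_cancel_right₀ hu0]
    have hc1 : c = 1 := by
      have h1 := congrArg (lc N) hσu
      rw [lc_gal, hlc, map_one, lc_mul, lc_algebraMap, hlc, mul_one] at h1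
      exact h1.symm
    rw [hc1, map_one, one_mul] at hσu
    apply Units.ext
    rw [coe_galUnits]
    exact hσu

/-- the same, read on `q`-expansion coefficients: all coefficients of `u` are `H`-fixed. -/
theorem exists_fixed_rep_coeff (H : Set GQ) (x : Additive (Kum Kb (FK N) m))
    (hx : ∀ σ ∈ H, gal N m σ x = x) :
    ∃ u : pDivUnits Kb (FK N) m, Additive.ofMul (Kum.mk u) = x ∧
      lc N ((u : (FK N)ˣ) : FK N) = 1 ∧
      ∀ σ ∈ H, ∀ k : ℤ, σ ((((u : (FK N)ˣ) : FK N) : LaurentSeries Kb).coeff k) =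
        (((u : (FK N)ˣ) : FK N) : LaurentSeries Kb).coeff k := by
  obtain ⟨u, hu, hlc, hfix, -⟩ := exists_fixed_rep N m H x hx
  refine ⟨u, hu, hlc, fun σ hσ k => ?_⟩
  have h1 := congrArg (fun w : (FK N)ˣ => (((w : FK N) : LaurentSeries Kb)).coeff k) (hfix σ hσ)
  exact h1

end Fermat.Agent.GB.A.Descent
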