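/-
GATE-B (S38/S43) / CASE A, INTERFACE node GB-A-FP (helper28): the closed statement **(FP)** of the
CASE A design (board 4901 §2 / 4876 / 5160), in HYPOTHESIS FORM.

Vocabulary (all on main): `M` a level, `q ∥ M` (`h : ExactDvd q M`), `A` a valuation subring of `ℚ̄`
(over `q`), `I_A = A.inertiaSubgroupIn ℚ`, `V = Kum_m(F_M)` (`= J₀(M)[m]`),
`K₁ = kerRed M A m`, `K₂ = kerRed₂ h A m` (kernels of the two reductions `r₁`, `r₂ = r₁ ∘ W_q`),
`K₁₂ = K₁ ⊓ K₂` (the TORIC part), `Rw₁ = (redDataBar M A).Rw`, `Rw₂ = (redData2 M A h).Rw` the two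
Gauss valuation rings of `F_M`, with residue maps `red₁, red₂` onto `FresBar M A` (`= F̄_{N'}`).

* `invSub`     : the `I_A`-invariant classes `V^{I_A}`;
* `FixedRep`   : `u` is an `I_A`-FIXED unit representing `y` (node A2, helper19:
                  `Descent.exists_fixed_rep`, instantiated here as `exists_fixedRep`);
* `BothUnit`   : `u` is a unit for BOTH Gauss valuations (`w₁(u) = w₂(u) = 0`);
* `redUnit₁/₂` : the reductions of a `BothUnit` as units of the residue function field;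
* `NormHyp`    : (A3, helper73) the obstruction `ob` in the only form (FP) uses:
                  `ObZero y → ∃ u, FixedRep y u ∧ BothUnit u`;
* `NodeHyp`    : (A4, helper84) `I_A`-fixed + `BothUnit` + `m ∣ div u`  ⟹  `m ∣ div (red_i u)`;
* `AbHyp t`    : (A5, helper42) `BothUnit` + `m ∣ div u` + `m ∣ div (red_i u)` ⟹ `t [u] ∈ K₁₂`;
* `fp`         : **(FP)**  `y ∈ V^{I_A}`, `ObZero y`  ⟹  `t y ∈ K₁ ⊓ K₂`;
* `fp_of_twist`, `fp_submodule` : the non-Eisenstein corollaries consumed by A6: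
  if `ObZero` holds on the image of an "Eisenstein twist" `E = T_ℓ − (ℓ+1)` of `V^{I_A}` and `E` is
  surjective on a submodule `Y ≤ V^{I_A}`, then `t Y ≤ K₁₂`; with `t` bijective on `Y` (old-killer
  invertible on the `ρ̄`-part) and `t Y ≤ Y`:  `Y ≤ K₁₂`.
-/
import Fermat.Agent.GK.UqKroneckerU
import Fermat.Agent.GK.SS.GalValInst
import Fermat.Agent.GB.A.Descent

set_option autoImplicit false

noncomputable section

namespace Fermat.Agent.GB.A.FP

open ModularCurve IsLocalRing AlgebraicCurve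
open Fermat.Agent.S24 Fermat.Agent.GJ.J1 Fermat.Agent.GJ.J1.Val
open Fermat.Agent.GJ.KumGroup Fermat.Agent.GJ.Kum.KumType
open Fermat.Agent.GK.UqKronecker Fermat.Agent.GK.AL Fermat.Agent.GK.SS

local notation "GQ" => (AlgebraicClosure ℚ ≃ₐ[ℚ] AlgebraicClosure ℚ)

variable {M : ℕ} [NeZero M] {q : ℕ} (h : ExactDvd q M) (A : ValuationSubring Kb) (m : ℕ)

/-! ### the vocabulary -/

/-- `V^{I_A}` : the classes of `Kum_m(F_M)` fixed by the inertia group of `A`. -/
def invSub : Submodule (ZMod m) (Additive (Kum Kb (FK M) m)) where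
  carrier := {y | ∀ σ ∈ A.inertiaSubgroupIn ℚ, gal M m σ y = y}
  zero_mem' := fun σ _ => map_zero _
  add_mem' := by
    intro a b ha hb σ hσ
    rw [map_add, ha σ hσ, hb σ hσ]
  smul_mem' := by
    intro c a ha σ hσ
    rw [map_smul, ha σ hσ]

omit [NeZero M] in
variable {A m} in
theorem mem_invSub {y : Additive (Kum Kb (FK M) m)} :
    y ∈ invSub (M := M) A m ↔ ∀ σ ∈ A.inertiaSubgroupIn ℚ, gal M m σ y = y := Iff.rfl

/-- `u` is an `I_A`-fixed unit representing the class `y`. -/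
def FixedRep (y : Additive (Kum Kb (FK M) m)) (u : pDivUnits Kb (FK M) m) : Prop :=
  Additive.ofMul (Kum.mk u) = y ∧
    ∀ σ ∈ A.inertiaSubgroupIn ℚ, galUnits M σ (u : (FK M)ˣ) = (u : (FK M)ˣ)

/-- `u` is a unit of BOTH Gauss valuation rings `Rw₁`, `Rw₂` of `F_M` at `A`. -/
def BothUnit (u : (FK M)ˣ) : Prop :=
  ((u : FK M) ∈ (redDataBar M A).Rw ∧ ((u⁻¹ : (FK M)ˣ) : FK M) ∈ (redDataBar M A).Rw) ∧
    ((u : FK M) ∈ (redData2 M A h).Rw ∧ ((u⁻¹ : (FK M)ˣ) : FK M) ∈ (redData2 M A h).Rw)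

section RedUnit

variable {K F k Ft : Type*} [Field K] [Field F] [Algebra K F] [Field k] [Field Ft] [Algebra k Ft]

/-- the reduction of a unit of the valuation ring of a reduction datum, as a unit of the residue
function field. -/
def redUnit (R : RedData K F k Ft) (u : Fˣ) (hu : (u : F) ∈ R.Rw)
    (hu' : ((u⁻¹ : Fˣ) : F) ∈ R.Rw) : Ftˣ where
  val := R.red ⟨(u : F), hu⟩
  inv := R.red ⟨((u⁻¹ : Fˣ) : F), hu'⟩
  val_inv := by
    rw [← map_mul]
    have e : (⟨(u : F), hu⟩ * ⟨((u⁻¹ : Fˣ) : F), hu'⟩ : R.Rw) = 1 :=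
      Subtype.ext (by show (u : F) * ((u⁻¹ : Fˣ) : F) = 1; rw [← Units.val_mul, mul_inv_cancel,
        Units.val_one])
    rw [e, map_one]
  inv_val := by
    rw [← map_mul]
    have e : (⟨((u⁻¹ : Fˣ) : F), hu'⟩ * ⟨(u : F), hu⟩ : R.Rw) = 1 :=
      Subtype.ext (by show ((u⁻¹ : Fˣ) : F) * (u : F) = 1; rw [← Units.val_mul, inv_mul_cancel,
        Units.val_one])
    rw [e, map_one]

@[simp] theorem coe_redUnit (R : RedData K F k Ft) (u : Fˣ) (hu : (u : F) ∈ R.Rw)
    (hu' : ((u⁻¹ : Fˣ) : F) ∈ R.Rw) :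
    ((redUnit R u hu hu' : Ftˣ) : Ft) = R.red ⟨(u : F), hu⟩ := rfl

end RedUnit

variable {h A} in
/-- `red₁ u` as a unit of `FresBar M A`. -/
def redUnit₁ {u : (FK M)ˣ} (hu : BothUnit h A u) : (FresBar M A)ˣ :=
  redUnit (redDataBar M A) u hu.1.1 hu.1.2

variable {h A} in
/-- `red₂ u` as a unit of `FresBar M A`. -/
def redUnit₂ {u : (FK M)ˣ} (hu : BothUnit h A u) : (FresBar M A)ˣ :=
  redUnit (redData2 M A h) u hu.2.1 hu.2.2

/-! ### the hypothesis shapes of the CASE A nodes -/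

/-- **(A3, normalisation)** for a predicate `ObZero` ("the obstruction `ob(y) ∈ ℤ/m` vanishes"):
an invariant class with vanishing obstruction has an `I_A`-fixed representative which is a unit for
both Gauss valuations. -/
def NormHyp (ObZero : Additive (Kum Kb (FK M) m) → Prop) : Prop :=
  ∀ y ∈ invSub (M := M) A m, ObZero y →
    ∃ u : pDivUnits Kb (FK M) m, FixedRep A m y u ∧ BothUnit h A (u : (FK M)ˣ)

/-- **(A4, nodes + specialisation of divisors)**: for an `I_A`-fixed `m`-divisible unit which is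
a unit for both Gauss valuations, both reductions are `m`-divisible units of the residue function
field `FresBar M A` over the residue field of `A`. -/
def NodeHyp : Prop :=
  ∀ u : pDivUnits Kb (FK M) m,
    (∀ σ ∈ A.inertiaSubgroupIn ℚ, galUnits M σ (u : (FK M)ˣ) = (u : (FK M)ˣ)) →
    ∀ hu : BothUnit h A (u : (FK M)ˣ),
      redUnit₁ hu ∈ pDivUnits (ResidueField A) (FresBar M A) m ∧
        redUnit₂ hu ∈ pDivUnits (ResidueField A) (FresBar M A) m

/-- **(A5, the abelian part dies)** for an endomorphism `t` (the old-killer): an `m`-divisible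
unit, unit for both Gauss valuations, whose two reductions are `m`-divisible, has
`t [u] ∈ K₁ ⊓ K₂`. -/
def AbHyp (t : Module.End (ZMod m) (Additive (Kum Kb (FK M) m))) : Prop :=
  ∀ (u : pDivUnits Kb (FK M) m) (hu : BothUnit h A (u : (FK M)ˣ)),
    redUnit₁ hu ∈ pDivUnits (ResidueField A) (FresBar M A) m →
    redUnit₂ hu ∈ pDivUnits (ResidueField A) (FresBar M A) m →
      t (Additive.ofMul (Kum.mk u)) ∈ kerRed M A m ⊓ kerRed₂ h A m

/-! ### (A2) is on main -/

/-- **(A2)** (helper19, `GB/A/Descent.exists_fixed_rep`): an invariant class has an `I_A`-fixed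
representative. -/
theorem exists_fixedRep [NeZero m] (y : Additive (Kum Kb (FK M) m))
    (hy : y ∈ invSub (M := M) A m) : ∃ u : pDivUnits Kb (FK M) m, FixedRep A m y u := by
  obtain ⟨u, hu, -, hfix, -⟩ :=
    Fermat.Agent.GB.A.Descent.exists_fixed_rep M m {σ | σ ∈ A.inertiaSubgroupIn ℚ} y hy
  exact ⟨u, hu, hfix⟩

/-! ### (FP) -/

variable {h A m}

/-- **(FP)**: an inertia-invariant class with vanishing obstruction is killed by `t` into the
toric part `K₁ ⊓ K₂`. -/
theorem fp {ObZero : Additive (Kum Kb (FK M) m) → Prop}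
    {t : Module.End (ZMod m) (Additive (Kum Kb (FK M) m))}
    (hA3 : NormHyp h A m ObZero) (hA4 : NodeHyp h A m) (hA5 : AbHyp h A m t)
    {y : Additive (Kum Kb (FK M) m)} (hy : y ∈ invSub (M := M) A m) (hob : ObZero y) :
    t y ∈ kerRed M A m ⊓ kerRed₂ h A m := by
  obtain ⟨u, ⟨rfl, hfix⟩, hu⟩ := hA3 y hy hob
  obtain ⟨h1, h2⟩ := hA4 u hfix hu
  exact hA5 u hu h1 h2

/-- **(FP), twisted form**: if the obstruction vanishes on `E (V^{I_A})` for an endomorphism `E`
(the Eisenstein twist `T_ℓ − (ℓ+1)`: `ob ∘ T_ℓ = (ℓ+1) · ob`), then `t (E y) ∈ K₁ ⊓ K₂` for every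
invariant `y` with `E y` invariant. -/
theorem fp_of_twist {ObZero : Additive (Kum Kb (FK M) m) → Prop}
    {t E : Module.End (ZMod m) (Additive (Kum Kb (FK M) m))}
    (hA3 : NormHyp h A m ObZero) (hA4 : NodeHyp h A m) (hA5 : AbHyp h A m t)
    (hE : ∀ y ∈ invSub (M := M) A m, ObZero (E y))
    {y : Additive (Kum Kb (FK M) m)} (hy : y ∈ invSub (M := M) A m)
    (hEy : E y ∈ invSub (M := M) A m) :
    t (E y) ∈ kerRed M A m ⊓ kerRed₂ h A m :=
  fp hA3 hA4 hA5 hEy (hE y hy)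

/-- **(FP) on a non-Eisenstein submodule**: `Y ≤ V^{I_A}` on which some Eisenstein twist `E` is
surjective is killed by `t` into the toric part. -/
theorem fp_submodule {ObZero : Additive (Kum Kb (FK M) m) → Prop}
    {t E : Module.End (ZMod m) (Additive (Kum Kb (FK M) m))}
    (hA3 : NormHyp h A m ObZero) (hA4 : NodeHyp h A m) (hA5 : AbHyp h A m t)
    (hE : ∀ y ∈ invSub (M := M) A m, ObZero (E y))
    (Y : Submodule (ZMod m) (Additive (Kum Kb (FK M) m))) (hYI : Y ≤ invSub (M := M) A m)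
    (hEY : ∀ y ∈ Y, ∃ y' ∈ Y, E y' = y) {y : Additive (Kum Kb (FK M) m)} (hy : y ∈ Y) :
    t y ∈ kerRed M A m ⊓ kerRed₂ h A m := by
  obtain ⟨y', hy', rfl⟩ := hEY y hy
  exact fp_of_twist hA3 hA4 hA5 hE (hYI hy') (hYI hy)

/-- **the `htor` input of A6** (`GB/A/A6/Abs.lean`): a non-Eisenstein submodule `Y ≤ V^{I_A}` on
which the old-killer `t` is surjective (`t Y = Y`) lies in the toric part `K₁ ⊓ K₂`. -/
theorem le_toric {ObZero : Additive (Kum Kb (FK M) m) → Prop}
    {t E : Module.End (ZMod m) (Additive (Kum Kb (FK M) m))}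
    (hA3 : NormHyp h A m ObZero) (hA4 : NodeHyp h A m) (hA5 : AbHyp h A m t)
    (hE : ∀ y ∈ invSub (M := M) A m, ObZero (E y))
    (Y : Submodule (ZMod m) (Additive (Kum Kb (FK M) m))) (hYI : Y ≤ invSub (M := M) A m)
    (hEY : ∀ y ∈ Y, ∃ y' ∈ Y, E y' = y) (htY : ∀ y ∈ Y, ∃ y' ∈ Y, t y' = y) :
    ∀ y ∈ Y, y ∈ kerRed M A m ⊓ kerRed₂ h A m := by
  intro y hy
  obtain ⟨y', hy', rfl⟩ := htY y hy
  exact fp_submodule hA3 hA4 hA5 hE Y hYI hEY hy'

end Fermat.Agent.GB.A.FP
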