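/-
GATE-B (S38/S43) / CASE A, integration (helper28): **the FP inputs `A6.Toric.FPInputs`** and
**CASE A in the S38 shape `GB.Top.S43Frey.CaseA38`**, from the closed nodes

* A3 : helper73 `GB/A3/Ob.lean` + helper19 `GB/A3/ObHecke.lean`  (`NormHyp` + Eisenstein twist rule),
* A4 : `GB/A/Desc/NodeFinal.nodeHyp_prime`                       (`NodeHyp`, no binder),
* A5 : `GB/A/Desc/LiftOdd.abHyp_all`                             (`AbHyp`),

with ONE remaining binder `N2Stmt` = the instance (N2) of the norm/reduction lemma at the odd good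
levels (helper81 `GB/A/Desc/NormInst.lean`), needed only for `q = 3`, `N'` odd.
-/
import Fermat.Agent.GB.A.A6.Toric
import Fermat.Agent.GB.A3.ObHecke
import Fermat.Agent.GB.A.Desc.NodeFinal
import Fermat.Agent.GB.A.Desc.LiftOdd

set_option autoImplicit false

noncomputable section

namespace Fermat.Agent.GB.A.FPInst

open AlgebraicCurve ModularCurve
open Fermat.Agent.GJ Fermat.Agent.GJ.KumGroup Fermat.Agent.GJ.Kum.KumType
open Fermat.Agent.GK.UQ Fermat.Agent.GK.New Fermat.Agent.GK.Tate.KumHecke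
open Fermat.Agent.GK.UqKronecker Fermat.Agent.GK.AL
open Fermat.Agent.GB.A Fermat.Agent.GB.A.A6.Toric Fermat.Agent.GB.A.Desc.LiftOdd

/-- **(A3)**, the first component of `FPInputs` -/
theorem a3 (p : ℕ) [Fact p.Prime] (N' q : ℕ) [NeZero N'] [Fact q.Prime]
    (h : ExactDvd q (N' * q)) (A : ValuationSubring Kb) (hA : A.LiesOverPrime q) :
    ∃ ObZero : Additive (Kum Kb (FK (N' * q)) p) → Prop,
      FP.NormHyp h A p ObZero ∧
      ∀ (ℓ : ℕ) (hℓ : ℓ.Prime) (hℓM : ¬ ℓ ∣ N' * q),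
        ∀ y ∈ FP.invSub (M := N' * q) A p,
          ObZero (kumTl (N' * q) p hℓ hℓM y - ((ℓ + 1 : ℕ) : ZMod p) • y) := by
  have hq : q.Prime := Fact.out
  refine ⟨Fermat.Agent.GB.A3.Ob.ObZero h A p hq hA,
    Fermat.Agent.GB.A3.ObHecke.normHyp' h A p hq hA, ?_⟩
  intro ℓ hℓ hℓM y hy
  have : Fact ℓ.Prime := ⟨hℓ⟩
  have : NeZero ℓ := ⟨hℓ.ne_zero⟩
  have key := Fermat.Agent.GB.A3.ObHecke.obZero_eisTwist h A p hq hA hℓM
    (Fermat.Agent.GJ.Kum.KumGate.hnMemHyp (N' * q) hℓ hℓM)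
    (Fermat.Agent.GJ.Kum.KumGate.hnDivHyp (N' * q) p hℓ hℓM) y hy
  rw [Fermat.Agent.GB.A3.Ob.eisTwist_apply] at key
  rw [Nat.cast_smul_eq_nsmul]
  exact key

/-- **(N2) as a binder**: the norm `F_{N'·2} → F_{N'}` and the reduction, at the odd levels
(helper81 `GB/A/Desc/NormInst.lean`). -/
def N2Stmt : Prop :=
  ∀ (N' : ℕ) [NeZero N'] (A : ValuationSubring Kb), ¬ 2 ∣ N' → ResFinHyp N' A ∧ NormRedHyp N' A

/-- **the FP inputs** -/
theorem fpInputs_of (hN2 : N2Stmt) : FPInputs := by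
  intro p _ hp5 N' q _ _ h hq2 hqp A hA
  have hp : p.Prime := Fact.out
  have hq : q.Prime := Fact.out
  have hm5 : ∀ r : ℕ, r.Prime → r ∣ p → 5 ≤ r := fun r hr hrp => by
    rw [(Nat.prime_dvd_prime_iff_eq hr hp).1 hrp]
    exact hp5
  have hqp' : ¬ q ∣ p := fun hd => hqp ((Nat.prime_dvd_prime_iff_eq hq hp).1 hd)
  refine ⟨a3 p N' q h A hA, Desc.nodeHyp_prime h hq2 hA hp hp5, ?_⟩
  intro S hN'S hMS hmS ζ hζ P hP
  exact abHyp_all A hA N' h hq2 (hN2 N' A) S p hqp' hm5 hζ hN'S hMS hmS P hP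

/-- **CASE A (Mazur's principle at `q ≠ p`) in the S38 shape** -/
theorem caseA38_of (hN2 : N2Stmt) : Fermat.Agent.GB.Top.S43Frey.CaseA38 :=
  caseA38_of_fpInputs (fpInputs_of hN2)

end Fermat.Agent.GB.A.FPInst
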