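/-
GATE-B (S38/S43) / CASE A, FINAL EXPORT (helper28, integrator):

**`Fermat.Agent.GB.A.caseA38 : Fermat.Agent.GB.Top.S43Frey.CaseA38`** — Mazur's principle at an odd
prime `q ≠ p`, `5 ≤ p`, in the frozen S38 shape: if the level cannot be lowered at `q`, then
`q ≡ 1 (mod p)` and every Frobenius at `q` is scalar on `W[p]`.  No binder.

Nodes: A1 helper25 (`GB/A1`), A2 helper19 (`GB/A/Descent`), A3 helper73 + helper19 (`GB/A3`,
`GB/A/HeckeW`), A4 helper84 + helper19 (`GB/A/A4`) with the level descent `GB/A/Desc` (helper28,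
helper48, helper81), A5 helper42 + helper19 + helper56 + helper81 (`GB/A/A5`, `GB/A/K2Gen`) with the
norm descent `GB/A/Desc/{NormRed,LiftOdd,NormInst,NormInstH}`, A6 helper35 + helper25 + helper84 +
helper79 (`GB/A/A6`, `GB/Top/CongrAll`), integration `GB/A/{FP,FPInst}` (helper28).
-/
import Fermat.Agent.GB.A.Desc.NormInstH

set_option autoImplicit false

namespace Fermat.Agent.GB.A

/-- **CASE A in the S38 shape, no binder.** -/
theorem caseA38 : Fermat.Agent.GB.Top.S43Frey.CaseA38 :=
  Fermat.Agent.GB.A.Desc.NormInstH.caseA38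

/-- **the FP inputs (A3 + A4 + A5), no binder.** -/
theorem fpInputs : Fermat.Agent.GB.A.A6.Toric.FPInputs :=
  Fermat.Agent.GB.A.Desc.NormInstH.fpInputs

end Fermat.Agent.GB.A
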